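import Fermat.Agent.AV.Local.EtaleLift
import Fermat.Agent.AV.Scheme.Field
import Mathlib.AlgebraicGeometry.Morphisms.Smooth
import Mathlib.AlgebraicGeometry.FunctionField
import Mathlib.RingTheory.Jacobson.Ring
import Mathlib.RingTheory.AlgebraicIndependent.TranscendenceBasis
import Mathlib.Combinatorics.Matroid.Rank.ENat
import Mathlib.FieldTheory.IsAlgClosed.Basic

/-!
# Etale charts of an abelian variety

An abelian variety over an algebraically closed field is integral, its points have fields of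
definition of transcendence degree at most `g`, and generic points lie in every affine chart with
injective coordinates.
-/

set_option autoImplicit false

noncomputable section

open CategoryTheory AlgebraicGeometry
open IsLocalRing

namespace Fermat.Agent.AV

universe u

namespace Local

/-- Elements algebraic over `g` given ones: at most `g` are independent, and if `g` are, then so
are the given ones. -/
lemma le_and_independent {K L : Type u} [Field K] [Field L] [Algebra K L] {g m : ℕ}
    (u : Fin g → L) (v : Fin m → L) (hv : AlgebraicIndependent K v)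
    (h : ∀ i, IsAlgebraic (IntermediateField.adjoin K (Set.range u)) (v i)) :
    m ≤ g ∧ (m = g → AlgebraicIndependent K u) := by
  set M := AlgebraicIndependent.matroid K L
  have hI : M.Indep (Set.range v) := by
    rw [AlgebraicIndependent.matroid_indep_iff]
    exact hv.to_subtype_range
  have hsub : Set.range v ⊆ M.closure (Set.range u) := by
    rintro _ ⟨i, rfl⟩
    rw [AlgebraicIndependent.matroid_closure_eq, SetLike.mem_coe, Subalgebra.mem_algebraicClosure]
    exact (IntermediateField.isAlgebraic_adjoin_iff).1 (h i)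
  have hm : (m : ℕ∞) ≤ M.eRk (Set.range u) := by
    rw [← M.eRk_closure_eq]
    refine le_trans ?_ (hI.encard_le_eRk_of_subset hsub)
    rw [← Set.image_univ, hv.injective.injOn.encard_image, Set.encard_univ,
        ENat.card_eq_coe_fintype_card,
      Fintype.card_fin]
  have hu : (Set.range u).encard ≤ g := by
    rw [← Set.image_univ]
    refine (Set.encard_image_le _ _).trans ?_
    simp
  refine ⟨by exact_mod_cast hm.trans ((M.eRk_le_encard _).trans hu), fun hmg => ?_⟩
  subst hmg
  have h1 : (Set.range u).encard = m := le_antisymm hu (hm.trans (M.eRk_le_encard _))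
  have h2 : M.Indep (Set.range u) :=
    (Matroid.indep_iff_eRk_eq_encard_of_finite (Set.finite_range u)).2
      (le_antisymm (M.eRk_le_encard _) (h1 ▸ hm))
  have hinj : Function.Injective u := by
    rw [← Set.injOn_univ]
    refine Set.Finite.injOn_of_encard_image_eq Set.finite_univ ?_
    rw [Set.image_univ, h1]
    simp
  rw [AlgebraicIndependent.matroid_indep_iff] at h2
  exact AlgebraicIndependent.of_subtype_range hinj h2

end Local

open Local

namespace AbVar

variable {K : Type u} [Field K] (V : AbVar K)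

/-- **Etale charts.** -/
lemma exists_etale_chart (p : V.A) : ∃ U : V.A.Opens, ∃ _ : IsAffineOpen U, p ∈ U ∧
    ∃ t : Fin V.g → Γ(V.A, U),
      letI := V.chartAlgebra U
      (MvPolynomial.aeval (R := K) t).toRingHom.Etale := by
  obtain ⟨U₀, hU₀, U, hU, hp, e, h⟩ :=
    SmoothOfRelativeDimension.exists_isStandardSmoothOfRelativeDimension (n := V.g) (f := V.f) p
  obtain rfl : U₀ = ⊤ := by
    refine TopologicalSpace.Opens.ext (Set.eq_univ_of_forall fun q => ?_)
    rw [Subsingleton.elim (α := PrimeSpectrum K) q (V.f p)]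
    exact e hp
  refine ⟨U, hU, hp, ?_⟩
  let := V.chartAlgebra U
  have h' : (algebraMap K Γ(V.A, U)).IsStandardSmoothOfRelativeDimension V.g :=
    RingHom.isStandardSmoothOfRelativeDimension_respectsIso.right _
      (Scheme.ΓSpecIso (CommRingCat.of K)).symm.commRingCatIsoToRingEquiv h
  obtain ⟨φ, hφ, het⟩ := h'.exists_etale_mvPolynomial
  refine ⟨fun i => φ (MvPolynomial.X i), ?_⟩
  convert het using 1
  refine MvPolynomial.ringHom_ext (fun c => ?_) fun i => ?_
  · show MvPolynomial.aeval _ (MvPolynomial.C c) = _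
    rw [MvPolynomial.aeval_C, ← hφ]
    rfl
  · exact MvPolynomial.aeval_X _ i

/-- The coordinates of a point in an etale chart. -/
lemma exists_etale_hom {L : Type u} [Field L] [Algebra K L] (x : V.Point L) :
    ∃ (U : V.A.Opens) (hU : IsAffineOpen U) (t : Fin V.g → Γ(V.A, U)),
      letI := V.chartAlgebra U
      (MvPolynomial.aeval (R := K) t).toRingHom.Etale ∧
        ∃ a : Γ(V.A, U) →ₐ[K] L, V.ofChart hU a = x ∧
          ∀ z ∈ V.imgField x,
            IsAlgebraic (IntermediateField.adjoin K (Set.range fun i => a (t i))) z := by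
  obtain ⟨U, hU, hp, t, het⟩ := V.exists_etale_chart (x.1 (closedPoint L))
  obtain ⟨a, ha⟩ := V.exists_ofChart hU x (by
    rintro _ ⟨q, rfl⟩
    rwa [Subsingleton.elim q (closedPoint L)])
  let := V.chartAlgebra U
  refine ⟨U, hU, t, het, a, ha, fun z hz => ?_⟩
  let : Algebra (MvPolynomial (Fin V.g) K) Γ(V.A, U) :=
    (MvPolynomial.aeval (R := K) t).toRingHom.toAlgebra
  have : IsScalarTower K (MvPolynomial (Fin V.g) K) Γ(V.A, U) :=
    .of_algebraMap_eq' (MvPolynomial.aeval (R := K) t).comp_algebraMap.symm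
  have : Algebra.Etale (MvPolynomial (Fin V.g) K) Γ(V.A, U) := het
  have hc : coord K V.g Γ(V.A, U) = t := funext fun i => MvPolynomial.aeval_X t i
  set M := IntermediateField.adjoin K (Set.range fun i => a (t i))
  have hle : V.imgField x ≤ (algebraicClosure M L).restrictScalars K := by
    rw [← ha, V.imgField_ofChart, IntermediateField.adjoin_le_iff]
    rintro _ ⟨b, rfl⟩
    refine mem_algebraicClosure_iff.2 ?_
    have := isAlgebraic_coord (g := V.g) a b
    rwa [hc] at this
  exact mem_algebraicClosure_iff.1 (hle hz)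

/-- A field of definition has transcendence degree at most `g`. -/
theorem not_independent_imgField {L : Type u} [Field L] [Algebra K L] (x : V.Point L)
    (v : Fin (V.g + 1) → L) (hv : ∀ i, v i ∈ V.imgField x) : ¬ AlgebraicIndependent K v := by
  intro hind
  obtain ⟨U, hU, t, -, a, -, halg⟩ := V.exists_etale_hom x
  let := V.chartAlgebra U
  have := (le_and_independent _ v hind fun i => halg _ (hv i)).1
  omega

section Closed

variable [IsAlgClosed K]

/-- Every point has an affine neighbourhood with domain of functions. -/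
lemma exists_domain_nhd (p : V.A) : ∃ W : V.A.Opens, IsAffineOpen W ∧ p ∈ W ∧
    IsDomain Γ(V.A, W) := by
  obtain ⟨U, hU, hp, t, het⟩ := V.exists_etale_chart p
  let := V.chartAlgebra U
  let : Algebra (MvPolynomial (Fin V.g) K) Γ(V.A, U) :=
    (MvPolynomial.aeval (R := K) t).toRingHom.toAlgebra
  have : IsScalarTower K (MvPolynomial (Fin V.g) K) Γ(V.A, U) :=
    .of_algebraMap_eq' (MvPolynomial.aeval (R := K) t).comp_algebraMap.symm
  have : Algebra.Etale (MvPolynomial (Fin V.g) K) Γ(V.A, U) := het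
  have : IsNoetherianRing Γ(V.A, U) := isNoetherianRing_etale K V.g _
  have : Algebra.FinitePresentation (MvPolynomial (Fin V.g) K) Γ(V.A, U) :=
    Algebra.Etale.finitePresentation
  have hft : Algebra.FiniteType K Γ(V.A, U) :=
    Algebra.FiniteType.trans (S := MvPolynomial (Fin V.g) K) inferInstance inferInstance
  obtain ⟨m, hm, hpm⟩ := Ideal.exists_le_maximal _ (hU.primeIdealOf ⟨p, hp⟩).isPrime.ne_top
  let := Ideal.Quotient.field m
  have : Algebra.FiniteType K (Γ(V.A, U) ⧸ m) :=
    Algebra.FiniteType.of_surjective (Ideal.Quotient.mkₐ K m) Ideal.Quotient.mk_surjective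
  have : Module.Finite K (Γ(V.A, U) ⧸ m) := finite_of_finite_type_of_isJacobsonRing _ _
  let e : K ≃ₐ[K] Γ(V.A, U) ⧸ m :=
    AlgEquiv.ofBijective (Algebra.ofId K _) IsAlgClosed.algebraMap_bijective_of_isIntegral
  let a : Γ(V.A, U) →ₐ[K] K := e.symm.toAlgHom.comp (Ideal.Quotient.mkₐ K m)
  have ha : ∀ b, a b = 0 ↔ b ∈ m := fun b => by
    rw [← Ideal.Quotient.eq_zero_iff_mem]
    exact map_eq_zero_iff e.symm e.symm.injective
  let k : Ideal Γ(V.A, U) :=
    { carrier := {b | ∃ u, a u = 1 ∧ u * b = 0}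
      add_mem' := by
        rintro b c ⟨u, hu, hu'⟩ ⟨w, hw, hw'⟩
        refine ⟨u * w, by rw [map_mul, hu, hw, one_mul], ?_⟩
        rw [mul_add, mul_right_comm, hu', zero_mul, mul_assoc, hw', mul_zero, add_zero]
      zero_mem' := ⟨1, map_one a, mul_zero 1⟩
      smul_mem' := by
        rintro c b ⟨u, hu, hu'⟩
        exact ⟨u, hu, by rw [smul_eq_mul, mul_left_comm, hu', mul_zero]⟩ }
  classical
  obtain ⟨S, hS⟩ := IsNoetherian.noetherian k
  obtain ⟨f, hf, hfk⟩ : ∃ f, a f = 1 ∧ ∀ b ∈ k, f * b = 0 := by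
    have hmem : ∀ s : (S : Set Γ(V.A, U)), (s : Γ(V.A, U)) ∈ k := fun s =>
      hS ▸ Submodule.subset_span s.2
    choose w hw hw' using hmem
    refine ⟨∏ s, w s, by rw [map_prod, Finset.prod_eq_one fun s _ => hw s], fun b hb => ?_⟩
    rw [← hS] at hb
    induction hb using Submodule.span_induction with
    | mem s hs =>
        rw [← Finset.mul_prod_erase _ _ (Finset.mem_univ (⟨s, hs⟩ : (S : Set Γ(V.A, U)))),
          mul_right_comm, hw' ⟨s, hs⟩, zero_mul]
    | zero => rw [mul_zero]
    | add _ _ _ _ h1 h2 => rw [mul_add, h1, h2, add_zero]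
    | smul c _ _ h1 => rw [smul_eq_mul, mul_left_comm, h1, mul_zero]
  refine ⟨V.A.basicOpen f, hU.basicOpen f, ?_, ?_⟩
  · have : hU.primeIdealOf ⟨p, hp⟩ ∈ PrimeSpectrum.basicOpen f := fun h =>
      zero_ne_one (α := K) (((ha f).2 (hpm h)).symm.trans hf)
    rw [← hU.fromSpec_preimage_basicOpen] at this
    exact (congrArg (· ∈ V.A.basicOpen f) (hU.fromSpec_primeIdealOf ⟨p, hp⟩)).mp this
  · have := hU.isLocalization_basicOpen f
    have hf0 : ∀ n : ℕ, f ^ n ≠ 0 := fun n h0 => by
      simpa [hf] using congrArg a h0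
    have : Nontrivial Γ(V.A, V.A.basicOpen f) := ⟨1, 0, fun h => by
      rw [← map_one (algebraMap Γ(V.A, U) Γ(V.A, V.A.basicOpen f)),
        IsLocalization.map_eq_zero_iff (Submonoid.powers f)] at h
      obtain ⟨⟨_, n, rfl⟩, hn⟩ := h
      exact hf0 n (by simpa using hn)⟩
    have : NoZeroDivisors Γ(V.A, V.A.basicOpen f) := ⟨fun {z w} hzw => by
      obtain ⟨b, s, rfl⟩ := IsLocalization.exists_mk'_eq (Submonoid.powers f) z
      obtain ⟨c, r, rfl⟩ := IsLocalization.exists_mk'_eq (Submonoid.powers f) w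
      rw [← IsLocalization.mk'_mul, IsLocalization.mk'_eq_zero_iff] at hzw
      obtain ⟨⟨_, n, rfl⟩, hn⟩ := hzw
      rw [IsLocalization.mk'_eq_zero_iff, IsLocalization.mk'_eq_zero_iff]
      obtain ⟨u, hu, hu'⟩ :=
        exists_mul_eq_zero_of_mul (g := V.g) a (b := f ^ n * b) (c := c) (by rwa [mul_assoc])
      refine hu'.imp (fun h1 => ⟨⟨_, n + 1, rfl⟩, ?_⟩) (fun h1 => ⟨⟨_, 1, rfl⟩, ?_⟩)
      · show f ^ (n + 1) * b = 0
        rw [pow_succ', mul_assoc]
        exact hfk _ ⟨u, hu, h1⟩
      · show f ^ 1 * c = 0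
        rw [pow_one]
        exact hfk _ ⟨u, hu, h1⟩⟩
    exact NoZeroDivisors.to_isDomain _

/-- An abelian variety over an algebraically closed field is integral. -/
instance isIntegral : IsIntegral V.A := by
  have hred : AlgebraicGeometry.IsReduced V.A := by
    have : ∀ p : V.A, _root_.IsReduced (V.A.presheaf.stalk p) := fun p => by
      obtain ⟨W, hW, hp, hdom⟩ := V.exists_domain_nhd p
      let : Algebra Γ(V.A, W) (V.A.presheaf.stalk p) := (V.A.presheaf.germ W p hp).hom.toAlgebra
      have : IsLocalization.AtPrime (V.A.presheaf.stalk p) (hW.primeIdealOf ⟨p, hp⟩).asIdeal :=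
        hW.isLocalization_stalk ⟨p, hp⟩
      have : IsDomain (V.A.presheaf.stalk p) :=
        IsLocalization.isDomain_of_atPrime _ (hW.primeIdealOf ⟨p, hp⟩).asIdeal
      infer_instance
    exact isReduced_of_isReduced_stalk V.A
  have hirr : ∀ p : V.A, ∃ W : V.A.Opens, p ∈ W ∧ IsPreirreducible (W : Set V.A) := fun p => by
    obtain ⟨W, hW, hp, hdom⟩ := V.exists_domain_nhd p
    refine ⟨W, hp, ?_⟩
    rw [← hW.range_fromSpec, ← Set.image_univ]
    exact (IrreducibleSpace.isIrreducible_univ (PrimeSpectrum Γ(V.A, W))).isPreirreducible.image _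
      (Scheme.Hom.continuous _).continuousOn
  obtain ⟨p₀⟩ : Nonempty V.A := inferInstance
  obtain ⟨W₀, hp₀, hW₀⟩ := hirr p₀
  have huniv : closure (W₀ : Set V.A) = Set.univ := by
    refine IsClopen.eq_univ ⟨isClosed_closure, isOpen_iff_mem_nhds.2 fun p hp => ?_⟩
      ⟨p₀, subset_closure hp₀⟩
    obtain ⟨W, hpW, hW⟩ := hirr p
    refine Filter.mem_of_superset (W.2.mem_nhds hpW) ?_
    exact (subset_closure_inter_of_isPreirreducible_of_isOpen hW W₀.2
      (mem_closure_iff.1 hp W W.2 hpW)).trans (closure_mono Set.inter_subset_right)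
  have : IrreducibleSpace V.A :=
    { isPreirreducible_univ := huniv ▸ hW₀.closure
      toNonempty := ⟨p₀⟩ }
  exact isIntegral_of_irreducibleSpace_of_isReduced _

/-- **Generic points have injective coordinates in every chart.** -/
theorem exists_injective_chart {U : V.A.Opens} (hU : IsAffineOpen U) [Nonempty U] {L : Type u}
    [Field L] [Algebra K L] (x : V.Point L) (v : Fin V.g → L) (hv : AlgebraicIndependent K v)
    (hvx : ∀ i, v i ∈ V.imgField x) :
    letI := V.chartAlgebra U
    ∃ a : Γ(V.A, U) →ₐ[K] L, Function.Injective a ∧ V.ofChart hU a = x := by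
  obtain ⟨U₀, hU₀, t, het, a₀, ha₀, halg⟩ := V.exists_etale_hom x
  let := V.chartAlgebra U₀
  let : Algebra (MvPolynomial (Fin V.g) K) Γ(V.A, U₀) :=
    (MvPolynomial.aeval (R := K) t).toRingHom.toAlgebra
  have : IsScalarTower K (MvPolynomial (Fin V.g) K) Γ(V.A, U₀) :=
    .of_algebraMap_eq' (MvPolynomial.aeval (R := K) t).comp_algebraMap.symm
  have : Algebra.Etale (MvPolynomial (Fin V.g) K) Γ(V.A, U₀) := het
  have hc : coord K V.g Γ(V.A, U₀) = t := funext fun i => MvPolynomial.aeval_X t i
  have hx0 : x.1 (closedPoint L) ∈ U₀ := by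
    rw [← ha₀]
    exact SetLike.mem_coe.mp (hU₀.range_fromSpec ▸ Set.mem_range_self _)
  have : Nonempty U₀ := ⟨⟨_, hx0⟩⟩
  have hind : AlgebraicIndependent K fun i => a₀ (coord K V.g Γ(V.A, U₀) i) := by
    rw [hc]
    exact (le_and_independent _ v hv fun i => halg _ (hvx i)).2 rfl
  have hinj₀ := injective_of_independent a₀ hind
  set P : PrimeSpectrum Γ(V.A, U₀) :=
    PrimeSpectrum.comap (a₀ : Γ(V.A, U₀) →+* L) (closedPoint L) with hP
  have hPbot : P.asIdeal = ⊥ := by
    ext b
    show a₀ b ∈ IsLocalRing.maximalIdeal L ↔ _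
    rw [IsLocalRing.maximalIdeal_eq_bot, Ideal.mem_bot, Ideal.mem_bot, map_eq_zero_iff a₀ hinj₀]
  have hxP : x.1 (closedPoint L) = hU₀.fromSpec P := by
    rw [← ha₀]
    rfl
  have hgen : ∀ W : V.A.Opens, (W : Set V.A).Nonempty → x.1 (closedPoint L) ∈ W := fun W hW => by
    obtain ⟨q, hqW, hq⟩ := nonempty_preirreducible_inter W.2 U₀.2 hW ⟨_, hx0⟩
    replace hq : q ∈ (U₀ : Set V.A) := hq
    rw [← hU₀.range_fromSpec] at hq
    obtain ⟨Q, rfl⟩ := hq
    rw [hxP]
    refine Specializes.mem_open ?_ W.2 hqW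
    exact ((PrimeSpectrum.le_iff_specializes P Q).1 (hPbot ▸ bot_le : P.asIdeal ≤ Q.asIdeal)).map
      (Scheme.Hom.continuous _)
  let := V.chartAlgebra U
  obtain ⟨a, ha⟩ := V.exists_ofChart hU x (by
    rintro _ ⟨q, rfl⟩
    rw [Subsingleton.elim q (closedPoint L)]
    exact hgen U (let ⟨q⟩ := ‹Nonempty U›; ⟨q.1, q.2⟩))
  refine ⟨a, (injective_iff_map_eq_zero a).2 fun r hr => ?_, ha⟩
  by_contra hr0
  have hne : (V.A.basicOpen r : Set V.A).Nonempty := by
    rw [Set.nonempty_iff_ne_empty]
    intro h0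
    exact hr0 (basicOpen_eq_bot_iff r |>.1 (TopologicalSpace.Opens.ext h0))
  have hmem := hgen _ hne
  rw [← ha] at hmem
  have hmem' : PrimeSpectrum.comap (a : Γ(V.A, U) →+* L) (closedPoint L) ∈
      PrimeSpectrum.basicOpen r := by
    rw [← hU.fromSpec_preimage_basicOpen]
    exact hmem
  exact hmem' (by
    show a r ∈ IsLocalRing.maximalIdeal L
    rw [hr]
    exact zero_mem _)

end Closed

end AbVar

end Fermat.Agent.AV

end
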