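import Mathlib.RingTheory.Etale.Basic
import Mathlib.RingTheory.Smooth.AdicCompletion
import Mathlib.RingTheory.Filtration
import Mathlib.RingTheory.Unramified.Field
import Mathlib.RingTheory.Unramified.Finite
import Mathlib.RingTheory.MvPowerSeries.Equiv
import Mathlib.RingTheory.MvPowerSeries.NoZeroDivisors
import Mathlib.RingTheory.AdicCompletion.Completeness
import Mathlib.RingTheory.Algebraic.Integral
import Mathlib.FieldTheory.IntermediateField.Adjoin.Basic

/-!
# Algebras etale over a polynomial ring

`B` is etale over `P = K[X₁, …, X_g]` and `a : B → K` a point.  Formal solutions at `a` exist;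
the universal one is injective up to elements invertible at `a`; images of `B` in fields are
algebraic over the coordinates.
-/

set_option autoImplicit false

noncomputable section

open MvPolynomial

namespace Fermat.Agent.AV.Local

universe u

variable {K : Type u} [Field K] {g : ℕ} {B : Type u} [CommRing B] [Algebra K B]
  [Algebra (MvPolynomial (Fin g) K) B] [IsScalarTower K (MvPolynomial (Fin g) K) B]
  [Algebra.Etale (MvPolynomial (Fin g) K) B]

variable (K g B) in
/-- The coordinates. -/
def coord (i : Fin g) : B := algebraMap (MvPolynomial (Fin g) K) B (X i)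

omit [Algebra.Etale (MvPolynomial (Fin g) K) B] in
lemma algebraMap_eq_aeval_coord (p : MvPolynomial (Fin g) K) :
    algebraMap (MvPolynomial (Fin g) K) B p = aeval (coord K g B) p :=
  AlgHom.congr_fun (MvPolynomial.algHom_ext (f := IsScalarTower.toAlgHom K _ B)
    (g := aeval (coord K g B)) fun i => by rw [aeval_X]; rfl) p

omit [Algebra.Etale (MvPolynomial (Fin g) K) B] in
lemma algHom_comp_algebraMap {C : Type u} [CommRing C] [Algebra K C] (h : B →ₐ[K] C)
    (p : MvPolynomial (Fin g) K) :
    h (algebraMap (MvPolynomial (Fin g) K) B p) = aeval (fun i => h (coord K g B i)) p := by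
  rw [algebraMap_eq_aeval_coord, ← AlgHom.comp_apply, MvPolynomial.comp_aeval]

/-- **Formal solutions exist.** -/
theorem exists_lift (a : B →ₐ[K] K) {S : Type u} [CommRing S] [Algebra K S] (I : Ideal S)
    [IsAdicComplete I S] (v : Fin g → S)
    (hv : ∀ i, v i - algebraMap K S (a (coord K g B i)) ∈ I) :
    ∃ ι : B →ₐ[K] S, (∀ i, ι (coord K g B i) = v i) ∧
      ∀ b, ι b - algebraMap K S (a b) ∈ I := by
  let : Algebra (MvPolynomial (Fin g) K) S := (aeval v).toRingHom.toAlgebra
  have : IsScalarTower K (MvPolynomial (Fin g) K) S :=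
    .of_algebraMap_eq' (aeval v).comp_algebraMap.symm
  let f : B →ₐ[MvPolynomial (Fin g) K] S ⧸ I :=
    { (Ideal.Quotient.mk I).comp ((algebraMap K S).comp (a : B →+* K)) with
      commutes' := fun p => by
        have h : ((Ideal.Quotient.mkₐ K I).comp
            ((Algebra.ofId K S).comp (a.comp (IsScalarTower.toAlgHom K _ B)))) =
            (Ideal.Quotient.mkₐ K I).comp (aeval v) := by
          refine MvPolynomial.algHom_ext fun i => ?_
          have := (Ideal.Quotient.eq (I := I)).2 (hv i)
          simpa [coord] using this.symm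
        exact AlgHom.congr_fun h p }
  obtain ⟨ι, hι⟩ := Algebra.FormallySmooth.exists_mkₐ_comp_eq_of_isAdicComplete f
  refine ⟨ι.restrictScalars K, fun i => ?_, fun b => ?_⟩
  · exact (ι.commutes (X i)).trans (aeval_X v i)
  · exact Ideal.Quotient.eq.1 (AlgHom.congr_fun hι b)

/-- The universal formal solution at `a`. -/
theorem exists_series (a : B →ₐ[K] K) :
    ∃ ι : B →ₐ[K] MvPowerSeries (Fin g) K,
      (∀ i, ι (coord K g B i) = MvPowerSeries.C (a (coord K g B i)) + MvPowerSeries.X i) ∧
      ∀ b, MvPowerSeries.constantCoeff (ι b) = a b := by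
  obtain ⟨ι, h1, h2⟩ := exists_lift a
    (Ideal.span (Set.range (MvPowerSeries.X : Fin g → MvPowerSeries (Fin g) K)))
    (fun i => MvPowerSeries.C (a (coord K g B i)) + MvPowerSeries.X i) fun i => by
      rw [show algebraMap K (MvPowerSeries (Fin g) K) = MvPowerSeries.C from rfl,
        add_sub_cancel_left]
      exact Ideal.subset_span ⟨i, rfl⟩
  refine ⟨ι, h1, fun b => ?_⟩
  have hle : Ideal.span (Set.range (MvPowerSeries.X : Fin g → MvPowerSeries (Fin g) K)) ≤
      RingHom.ker (MvPowerSeries.constantCoeff) :=
    Ideal.span_le.2 (by rintro _ ⟨i, rfl⟩; exact MvPowerSeries.constantCoeff_X i)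
  have h := hle (h2 b)
  rw [RingHom.mem_ker, map_sub, sub_eq_zero,
    show algebraMap K (MvPowerSeries (Fin g) K) = MvPowerSeries.C from rfl,
    MvPowerSeries.constantCoeff_C] at h
  exact h

variable (K g) in
lemma isNoetherianRing_etale (B : Type u) [CommRing B] [Algebra (MvPolynomial (Fin g) K) B]
    [Algebra.Etale (MvPolynomial (Fin g) K) B] : IsNoetherianRing B := by
  have : Algebra.FinitePresentation (MvPolynomial (Fin g) K) B := Algebra.Etale.finitePresentation
  exact Algebra.FiniteType.isNoetherianRing (MvPolynomial (Fin g) K) B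

/-- **Elements with vanishing series are killed by an element invertible at `a`.** -/
theorem exists_mul_eq_zero (a : B →ₐ[K] K) (ι : B →ₐ[K] MvPowerSeries (Fin g) K)
    (hι : ∀ i, ι (coord K g B i) = MvPowerSeries.C (a (coord K g B i)) + MvPowerSeries.X i)
    (hι₀ : ∀ b, MvPowerSeries.constantCoeff (ι b) = a b) {b : B} (hb : ι b = 0) :
    ∃ u, a u = 1 ∧ u * b = 0 := by
  have := isNoetherianRing_etale K g B
  set m : Ideal B := RingHom.ker a with hm
  have key : ∀ n : ℕ, b ∈ m ^ n := by
    intro n
    rcases Nat.eq_zero_or_pos n with rfl | hn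
    · simp
    let x : Fin g → B ⧸ m ^ n := fun i =>
      Ideal.Quotient.mk (m ^ n) (coord K g B i - algebraMap K B (a (coord K g B i)))
    have hx : ∀ i, x i ∈ m.map (Ideal.Quotient.mk (m ^ n)) := fun i =>
      Ideal.mem_map_of_mem _ (by simp [hm])
    have hnil : (m.map (Ideal.Quotient.mk (m ^ n))) ^ n = ⊥ := by
      rw [← Ideal.map_pow, Ideal.map_quotient_self]
    have hle : idealOfVars (Fin g) K ^ n ≤ RingHom.ker (aeval (R := K) x) := by
      rw [← Ideal.map_eq_bot_iff_le_ker, Ideal.map_pow, ← le_bot_iff, ← hnil]
      refine Ideal.pow_right_mono (Ideal.map_le_iff_le_comap.2 (Ideal.span_le.2 ?_)) n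
      rintro _ ⟨i, rfl⟩
      simpa using hx i
    let q : MvPolynomial (Fin g) K ⧸ idealOfVars (Fin g) K ^ n →+* B ⧸ m ^ n :=
      Ideal.Quotient.lift _ (aeval (R := K) x).toRingHom fun p hp => hle hp
    let π : MvPowerSeries (Fin g) K →+* B ⧸ m ^ n :=
      q.comp (MvPowerSeries.truncTotalAlgHom (Fin g) K n).toRingHom
    have hπ : ∀ p : MvPolynomial (Fin g) K, π (p : MvPowerSeries (Fin g) K) = aeval x p := by
      intro p
      show q (MvPowerSeries.truncTotalAlgHom (Fin g) K n
        (algebraMap (MvPolynomial (Fin g) K) (MvPowerSeries (Fin g) K) p)) = _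
      rw [AlgHom.commutes]
      rfl
    have hπC : ∀ c : K, π (MvPowerSeries.C c) = algebraMap K (B ⧸ m ^ n) c := fun c => by
      rw [← MvPolynomial.coe_C, hπ, aeval_C]
    let g₂ : B →ₐ[MvPolynomial (Fin g) K] B ⧸ m ^ n :=
      { π.comp (ι : B →+* MvPowerSeries (Fin g) K) with
        commutes' := fun p => by
          show π (ι (algebraMap _ B p)) = Ideal.Quotient.mk (m ^ n) (algebraMap _ B p)
          have h : (π.comp (ι : B →+* MvPowerSeries (Fin g) K)).comp (algebraMap _ B) =
              (Ideal.Quotient.mk (m ^ n)).comp (algebraMap (MvPolynomial (Fin g) K) B) := by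
            refine MvPolynomial.ringHom_ext (fun c => ?_) fun i => ?_
            · simp only [RingHom.comp_apply]
              rw [show algebraMap (MvPolynomial (Fin g) K) B (C c) = algebraMap K B c from
                (IsScalarTower.algebraMap_apply K (MvPolynomial (Fin g) K) B c).symm]
              show π (ι (algebraMap K B c)) = _
              rw [ι.commutes, show algebraMap K (MvPowerSeries (Fin g) K) c = MvPowerSeries.C c
                from rfl, hπC]
              rfl
            · simp only [RingHom.comp_apply]
              show π (ι (coord K g B i)) = Ideal.Quotient.mk _ (coord K g B i)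
              rw [hι, map_add, hπC, ← MvPolynomial.coe_X, hπ, aeval_X]
              simp only [x, map_sub]
              rw [← Ideal.Quotient.mk_algebraMap K (m ^ n)]
              ring
          exact RingHom.congr_fun h p }
    have heq : Ideal.Quotient.mkₐ (MvPolynomial (Fin g) K) (m ^ n) = g₂ := by
      refine Algebra.FormallyUnramified.ext (m.map (Ideal.Quotient.mk (m ^ n))) ⟨n, hnil⟩
        fun c => Ideal.Quotient.eq.2 ?_
      have h1 : c - algebraMap K B (a c) ∈ m := by simp [hm]
      have h2 : π (ι c - MvPowerSeries.C (a c)) ∈ m.map (Ideal.Quotient.mk (m ^ n)) := by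
        obtain ⟨p, hp⟩ := Ideal.Quotient.mk_surjective
          (MvPowerSeries.truncTotalAlgHom (Fin g) K n (ι c - MvPowerSeries.C (a c)))
        have hπp : π (ι c - MvPowerSeries.C (a c)) = aeval x p := by
          show q (MvPowerSeries.truncTotalAlgHom (Fin g) K n _) = _
          rw [← hp]
          rfl
        have hp0 : MvPolynomial.constantCoeff p = 0 := by
          have h3 : p - MvPowerSeries.truncTotal n (ι c - MvPowerSeries.C (a c)) ∈
              idealOfVars (Fin g) K ^ n := Ideal.Quotient.eq.1 hp
          have h4 := (mem_pow_idealOfVars_iff' n _).1 h3 0 (by simpa using hn)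
          rw [MvPolynomial.coeff_sub, MvPowerSeries.coeff_truncTotal _ (by simpa using hn),
            sub_eq_zero] at h4
          rw [MvPolynomial.constantCoeff_eq, h4, MvPowerSeries.coeff_zero_eq_constantCoeff_apply,
            map_sub, hι₀, MvPowerSeries.constantCoeff_C, sub_self]
        have hmem : p ∈ idealOfVars (Fin g) K := by
          rw [← pow_one (idealOfVars (Fin g) K), mem_pow_idealOfVars_iff']
          intro e he
          rw [show e = 0 from (Finsupp.degree_eq_zero_iff e).1 (by omega)]
          exact hp0
        rw [hπp]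
        have hle1 : idealOfVars (Fin g) K ≤
            (m.map (Ideal.Quotient.mk (m ^ n))).comap (aeval (R := K) x) :=
          Ideal.span_le.2 (by rintro _ ⟨i, rfl⟩; simpa using hx i)
        exact hle1 hmem
      rw [map_sub, hπC] at h2
      have h3 := Ideal.mem_map_of_mem (Ideal.Quotient.mk (m ^ n)) h1
      rw [map_sub, Ideal.Quotient.mk_algebraMap] at h3
      have := Ideal.sub_mem _ h3 h2
      rw [sub_sub_sub_cancel_right] at this
      exact this
    have := AlgHom.congr_fun heq b
    refine Ideal.Quotient.eq_zero_iff_mem.1 (this.trans ?_)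
    show π (ι b) = 0
    rw [hb, map_zero]
  have hmem : b ∈ (⨅ i : ℕ, m ^ i • ⊤ : Submodule B B) := by
    rw [Submodule.mem_iInf]
    intro i
    rw [smul_eq_mul, Ideal.mul_top]
    exact key i
  obtain ⟨r, hr⟩ := (m.mem_iInf_smul_pow_eq_bot_iff b).1 hmem
  refine ⟨1 - r, ?_, ?_⟩
  · rw [map_sub, map_one, show a (r : B) = 0 from r.2, sub_zero]
  · rw [sub_mul, one_mul, ← smul_eq_mul, hr, sub_self]

include g in
/-- The local ring at `a` has no zero divisors. -/
theorem exists_mul_eq_zero_of_mul (a : B →ₐ[K] K) {b c : B} (h : b * c = 0) :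
    ∃ u, a u = 1 ∧ (u * b = 0 ∨ u * c = 0) := by
  obtain ⟨ι, hι, hι₀⟩ := exists_series (g := g) a
  rcases mul_eq_zero.1 (show ι b * ι c = 0 by rw [← map_mul, h, map_zero]) with h1 | h1
  · obtain ⟨u, hu, hu'⟩ := exists_mul_eq_zero a ι hι hι₀ h1
    exact ⟨u, hu, Or.inl hu'⟩
  · obtain ⟨u, hu, hu'⟩ := exists_mul_eq_zero a ι hι hι₀ h1
    exact ⟨u, hu, Or.inr hu'⟩

/-- **Images in fields are algebraic over the coordinates.** -/
theorem isAlgebraic_coord {L : Type u} [Field L] [Algebra K L] (h : B →ₐ[K] L) (b : B) :
    IsAlgebraic (IntermediateField.adjoin K (Set.range fun i => h (coord K g B i))) (h b) := by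
  set M := IntermediateField.adjoin K (Set.range fun i => h (coord K g B i))
  let toM : MvPolynomial (Fin g) K →ₐ[K] M :=
    aeval fun i => ⟨h (coord K g B i), IntermediateField.subset_adjoin K _ ⟨i, rfl⟩⟩
  let : Algebra (MvPolynomial (Fin g) K) M := toM.toRingHom.toAlgebra
  let : Algebra (MvPolynomial (Fin g) K) L :=
    ((algebraMap M L).comp toM.toRingHom).toAlgebra
  have : IsScalarTower (MvPolynomial (Fin g) K) M L := .of_algebraMap_eq' rfl
  let hP : B →ₐ[MvPolynomial (Fin g) K] L :=
    { (h : B →+* L) with
      commutes' := fun p => by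
        show h (algebraMap _ B p) = ((toM p : M) : L)
        rw [algHom_comp_algebraMap]
        rw [← IntermediateField.coe_val, ← AlgHom.comp_apply, MvPolynomial.comp_aeval]
        rfl }
  let Φ : TensorProduct (MvPolynomial (Fin g) K) M B →ₐ[M] L :=
    Algebra.TensorProduct.lift (Algebra.ofId M L) hP fun _ _ => mul_comm _ _
  have : Module.Finite M (TensorProduct (MvPolynomial (Fin g) K) M B) :=
    Algebra.FormallyUnramified.finite_of_free M _
  have hint : IsIntegral M (Φ (1 ⊗ₜ b)) :=
    (Algebra.IsIntegral.isIntegral (R := M)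
      ((1 : M) ⊗ₜ[MvPolynomial (Fin g) K] b)).map Φ
  have e : Φ (1 ⊗ₜ b) = h b := by
    show algebraMap M L 1 * h b = h b
    rw [map_one, one_mul]
  rw [e] at hint
  exact hint.isAlgebraic

/-- **A map to a field with independent coordinates is injective.** -/
theorem injective_of_independent [IsDomain B] {L : Type u} [Field L] [Algebra K L] (h : B →ₐ[K] L)
    (hind : AlgebraicIndependent K fun i => h (coord K g B i)) : Function.Injective h := by
  have hcoord : AlgebraicIndependent K (coord K g B) := hind.of_comp h
  have hinj : Function.Injective (algebraMap (MvPolynomial (Fin g) K) B) := fun p q e =>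
    hcoord (by rw [← algebraMap_eq_aeval_coord, e, algebraMap_eq_aeval_coord])
  refine (injective_iff_map_eq_zero h).2 fun b hb => ?_
  by_contra hb0
  -- `b` is algebraic over the coordinates, in the fraction field
  let Q := FractionRing B
  let j : B →ₐ[K] Q := IsScalarTower.toAlgHom K B Q
  have halg : IsAlgebraic (MvPolynomial (Fin g) K) b := by
    have h1 := isAlgebraic_coord (g := g) j b
    set M := IntermediateField.adjoin K (Set.range fun i => j (coord K g B i))
    have h2 : IsAlgebraic (Algebra.adjoin K (Set.range fun i => j (coord K g B i))) (j b) :=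
      (IntermediateField.isAlgebraic_adjoin_iff).1 h1
    refine (isAlgebraic_algebraMap_iff (A := Q) (IsFractionRing.injective B Q)).1 ?_
    have hr : Set.range (algebraMap (MvPolynomial (Fin g) K) Q) =
        (Algebra.adjoin K (Set.range fun i => j (coord K g B i)) : Set Q) := by
      rw [show (Set.range fun i => j (coord K g B i)) = Set.range (j ∘ coord K g B) from rfl,
        Algebra.adjoin_range_eq_range_aeval]
      ext q
      refine exists_congr fun p => ?_
      rw [IsScalarTower.algebraMap_apply (MvPolynomial (Fin g) K) B Q]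
      show j (algebraMap _ B p) = q ↔ aeval (fun i => j (coord K g B i)) p = q
      rw [algHom_comp_algebraMap j p]
    obtain ⟨P, hP0, hP⟩ := h2
    have hmem : P.map (Subalgebra.val _ : _ →ₐ[K] Q).toRingHom ∈
        Polynomial.lifts (algebraMap (MvPolynomial (Fin g) K) Q) :=
      (Polynomial.lifts_iff_coeff_lifts _).2 fun n => by
        rw [Polynomial.coeff_map, hr]
        exact (P.coeff n).2
    obtain ⟨P', hP'⟩ := hmem
    refine ⟨P', fun e => hP0 ?_, ?_⟩
    · rw [e, Polynomial.coe_mapRingHom, Polynomial.map_zero] at hP'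
      exact Polynomial.map_injective _ Subtype.val_injective (by rw [← hP', Polynomial.map_zero])
    · rw [Polynomial.coe_mapRingHom] at hP'
      rw [Polynomial.aeval_def, ← Polynomial.eval_map, hP', Polynomial.eval_map]
      exact hP
  obtain ⟨P, hP0, hP⟩ := halg.exists_nonzero_coeff_and_aeval_eq_zero
    (mem_nonZeroDivisors_of_ne_zero hb0)
  have h0 : h (algebraMap (MvPolynomial (Fin g) K) B (P.coeff 0)) = 0 := by
    have := congrArg h hP
    rw [map_zero, Polynomial.aeval_eq_sum_range, map_sum, Finset.sum_range_succ'] at this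
    simpa [Algebra.smul_def, hb] using this
  rw [algHom_comp_algebraMap] at h0
  exact hP0 ((injective_iff_map_eq_zero _).1 hind _ h0)

end Fermat.Agent.AV.Local

end
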