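import Fermat.Agent.AV.Local.SeriesField
import Fermat.Agent.Row27.Points
import Fermat.Agent.Row27.Growth

/-!
# Independent series points in a common algebraically closed field

The series points on the axes are embedded through `s ↦ sᵢ` in an algebraic closure of the
fraction field of `K[[s₁, …, s_g]]`; series agreeing with the variables to first order are
algebraically independent.
-/

set_option autoImplicit false

noncomputable section

open AlgebraicCurve IntermediateField ModularCurve
open Fermat.Agent.Row27

namespace Fermat.Agent.AV.Local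

universe u

variable {K : Type u} [Field K] {g : ℕ}

/-- A power series in the `i`-th variable. -/
def curveSubst (i : Fin g) : PowerSeries K →ₐ[K] MvPowerSeries (Fin g) K :=
  MvPowerSeries.rename
    ((⟨fun _ => i, fun a b _ => Subsingleton.elim a b⟩ : Unit ↪ Fin g) : Unit → Fin g)

lemma curveSubst_X (i : Fin g) :
    curveSubst i (PowerSeries.X : PowerSeries K) = MvPowerSeries.X i :=
  MvPowerSeries.rename_X _ ()

lemma curveSubst_injective (i : Fin g) :
    Function.Injective (curveSubst (K := K) i) :=
  MvPowerSeries.rename_injective _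

lemma constantCoeff_curveSubst (i : Fin g) (p : PowerSeries K) :
    MvPowerSeries.constantCoeff (curveSubst i p) = PowerSeries.constantCoeff p := by
  rw [curveSubst, MvPowerSeries.constantCoeff_rename]
  rfl

/-- The part of a series of degree at most one. -/
def linPart : MvPowerSeries (Fin g) K →ₐ[K] TrivSqZeroExt K (Fin g → K) where
  toFun p := TrivSqZeroExt.inl (MvPowerSeries.constantCoeff p) +
    TrivSqZeroExt.inr fun j => MvPowerSeries.coeff (Finsupp.single j 1) p
  map_one' := by
    classical
    refine TrivSqZeroExt.ext (by simp) (funext fun j => ?_)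
    simp [MvPowerSeries.coeff_one]
  map_mul' p q := by
    classical
    refine TrivSqZeroExt.ext (by simp) (funext fun j => ?_)
    simp only [TrivSqZeroExt.snd_add, TrivSqZeroExt.snd_inl, TrivSqZeroExt.snd_inr, zero_add,
      TrivSqZeroExt.snd_mul, TrivSqZeroExt.fst_add, TrivSqZeroExt.fst_inl, TrivSqZeroExt.fst_inr,
      add_zero, Pi.add_apply, Pi.smul_apply, smul_eq_mul, MulOpposite.smul_eq_mul_unop,
      MulOpposite.unop_op]
    rw [MvPowerSeries.coeff_mul, Finsupp.antidiagonal_single, Finset.sum_map,
      show Finset.HasAntidiagonal.antidiagonal (1 : ℕ) = {(0, 1), (1, 0)} from rfl, Finset.sum_pair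
          (by decide)]
    simp [MvPowerSeries.coeff_zero_eq_constantCoeff_apply]
  map_zero' := TrivSqZeroExt.ext (by simp) (funext fun j => by simp)
  map_add' p q := TrivSqZeroExt.ext (by simp) (funext fun j => by simp)
  commutes' c := by
    classical
    refine TrivSqZeroExt.ext ?_ (funext fun j => ?_)
    · simp [TrivSqZeroExt.algebraMap_eq_inl, MvPowerSeries.algebraMap_apply]
    · simp [TrivSqZeroExt.algebraMap_eq_inl, MvPowerSeries.algebraMap_apply, MvPowerSeries.coeff_C]

lemma fst_linPart (p : MvPowerSeries (Fin g) K) :
    (linPart p).fst = MvPowerSeries.constantCoeff p := by simp [linPart]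

lemma snd_linPart (p : MvPowerSeries (Fin g) K) (j : Fin g) :
    (linPart p).snd j = MvPowerSeries.coeff (Finsupp.single j 1) p := by simp [linPart]

lemma linPart_curveSubst (i : Fin g) (p : PowerSeries K) :
    linPart (curveSubst i p) = TrivSqZeroExt.inl (PowerSeries.coeff 0 p) +
      TrivSqZeroExt.inr (Pi.single i (PowerSeries.coeff 1 p)) := by
  classical
  refine TrivSqZeroExt.ext ?_ (funext fun j => ?_)
  · rw [fst_linPart, curveSubst, MvPowerSeries.constantCoeff_rename]
    simp only [TrivSqZeroExt.fst_add, TrivSqZeroExt.fst_inl, TrivSqZeroExt.fst_inr, add_zero,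
      PowerSeries.coeff_zero_eq_constantCoeff_apply]
    rfl
  · rw [snd_linPart, TrivSqZeroExt.snd_add, TrivSqZeroExt.snd_inl, zero_add,
      TrivSqZeroExt.snd_inr]
    let e : Unit ↪ Fin g := ⟨fun _ => i, fun a b _ => Subsingleton.elim a b⟩
    rcases eq_or_ne j i with rfl | hj
    · rw [Pi.single_eq_same]
      have h := MvPowerSeries.coeff_embDomain_rename e p (Finsupp.single () 1)
      rw [Finsupp.embDomain_single] at h
      exact h
    · rw [Pi.single_eq_of_ne hj]
      refine MvPowerSeries.coeff_rename_eq_zero _ _ ?_
      rintro ⟨x, hx⟩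
      have := Finsupp.mapDomain_of_notMem_range (f := e) x j (by rintro ⟨_, h⟩; exact hj h.symm)
      rw [hx, Finsupp.single_eq_same] at this
      exact one_ne_zero this

/-- Series equal to the variables to first order take monomials to their leading monomials. -/
lemma coeff_prod_pow (u : Fin g → MvPowerSeries (Fin g) K)
    (hu : ∀ j, linPart (u j) = TrivSqZeroExt.inr (Pi.single j 1)) (e : Fin g →₀ ℕ) :
    ∀ m : Fin g →₀ ℕ, m.degree ≤ e.degree →
      MvPowerSeries.coeff m (∏ j, u j ^ e j) = if m = e then 1 else 0 := by
  classical
  have h0 : ∀ j, MvPowerSeries.constantCoeff (u j) = 0 := fun j => by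
    rw [← fst_linPart, hu, TrivSqZeroExt.fst_inr]
  have h1 : ∀ j l, MvPowerSeries.coeff (Finsupp.single l 1) (u j) = if l = j then 1 else 0 :=
    fun j l => by rw [← snd_linPart, hu, TrivSqZeroExt.snd_inr, Pi.single_apply]
  induction hn : e.degree generalizing e with
  | zero =>
    intro m hm
    have he : e = 0 := (Finsupp.degree_eq_zero_iff e).1 hn
    have hm0 : m = 0 := (Finsupp.degree_eq_zero_iff m).1 (by omega)
    subst he hm0
    simp
  | succ n ih =>
    intro m hm
    obtain ⟨j, hj⟩ : ∃ j, e j ≠ 0 := by
      by_contra hall
      push Not at hall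
      have : e = 0 := Finsupp.ext hall
      rw [this, map_zero] at hn
      omega
    set e' := e - Finsupp.single j 1 with he'
    have hee : e = e' + Finsupp.single j 1 := by
      ext l
      simp only [he', Finsupp.add_apply, Finsupp.tsub_apply, Finsupp.single_apply]
      split_ifs with h
      · subst h; omega
      · simp
    have hd' : e'.degree = n := by
      have := congrArg Finsupp.degree hee
      rw [map_add, Finsupp.degree_single, hn] at this
      omega
    have hprod : ∏ l, u l ^ e l = (∏ l, u l ^ e' l) * u j := by
      conv_lhs => rw [hee]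
      simp only [Finsupp.add_apply, pow_add, Finset.prod_mul_distrib]
      congr 1
      rw [Finset.prod_eq_single j (fun l _ hl => by simp [Ne.symm hl]) (by simp)]
      simp
    rw [hprod, MvPowerSeries.coeff_mul]
    have hterm : ∀ x ∈ Finset.HasAntidiagonal.antidiagonal m,
        MvPowerSeries.coeff x.1 (∏ l, u l ^ e' l) * MvPowerSeries.coeff x.2 (u j) =
          if x = (e', Finsupp.single j 1) then 1 else 0 := by
      rintro ⟨a, b⟩ hab
      rw [Finset.HasAntidiagonal.mem_antidiagonal] at hab
      have hdab : a.degree + b.degree = m.degree := by rw [← map_add, hab]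
      by_cases ha : a.degree ≤ n
      · rw [ih e' hd' a ha]
        by_cases hae : a = e'
        · subst hae
          rw [if_pos rfl, one_mul]
          rcases Nat.lt_or_ge b.degree 1 with hb | hb
          · have hb0 : b = 0 := (Finsupp.degree_eq_zero_iff b).1 (by omega)
            subst hb0
            rw [MvPowerSeries.coeff_zero_eq_constantCoeff_apply, h0, if_neg]
            simp [eq_comm]
          · have hb1 : b.degree = 1 := by omega
            obtain ⟨l, rfl⟩ := exists_eq_single_of_degree_eq_one b hb1
            rw [h1]
            by_cases hl : l = j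
            · simp [hl]
            · rw [if_neg hl, if_neg]
              simp only [Prod.mk.injEq, true_and]
              exact fun h => hl (Finsupp.single_left_injective one_ne_zero h)
        · rw [if_neg hae, zero_mul, if_neg]
          simp [hae]
      · have hb0 : b = 0 := (Finsupp.degree_eq_zero_iff b).1 (by omega)
        subst hb0
        rw [MvPowerSeries.coeff_zero_eq_constantCoeff_apply, h0, mul_zero, if_neg]
        simp [eq_comm]
    rw [Finset.sum_congr rfl hterm, Finset.sum_ite_eq']
    simp only [Finset.HasAntidiagonal.mem_antidiagonal, ← hee, eq_comm]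
where
  exists_eq_single_of_degree_eq_one (b : Fin g →₀ ℕ) (hb : b.degree = 1) :
      ∃ l, b = Finsupp.single l 1 := by
    classical
    obtain ⟨l, hl⟩ : ∃ l, b l ≠ 0 := by
      by_contra hall
      push Not at hall
      rw [show b = 0 from Finsupp.ext hall, map_zero] at hb
      omega
    refine ⟨l, ?_⟩
    have hle : Finsupp.single l 1 ≤ b := by
      intro k
      rw [Finsupp.single_apply]
      split_ifs with h
      · subst h; omega
      · exact Nat.zero_le _
    obtain ⟨c, hc⟩ := le_iff_exists_add.1 hle
    rw [hc, map_add, Finsupp.degree_single] at hb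
    rw [hc, (Finsupp.degree_eq_zero_iff c).1 (by omega), add_zero]

variable (K g)

/-- An algebraically closed field containing `K[[s₁, …, s_g]]`. -/
abbrev Big : Type u := AlgebraicClosure (FractionRing (MvPowerSeries (Fin g) K))

/-- The inclusion of series. -/
def toBig : MvPowerSeries (Fin g) K →ₐ[K] Big K g :=
  IsScalarTower.toAlgHom K (MvPowerSeries (Fin g) K) (Big K g)

variable {K g}

lemma toBig_injective : Function.Injective (toBig K g) :=
  (algebraMap (FractionRing (MvPowerSeries (Fin g) K)) (Big K g)).injective.comp
    (IsFractionRing.injective (MvPowerSeries (Fin g) K) (FractionRing (MvPowerSeries (Fin g) K)))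

/-- Series equal to the variables to first order are algebraically independent. -/
theorem algebraicIndependent_of_linPart (u : Fin g → MvPowerSeries (Fin g) K)
    (hu : ∀ j, linPart (u j) = TrivSqZeroExt.inr (Pi.single j 1)) :
    AlgebraicIndependent K fun j => toBig K g (u j) := by
  classical
  rw [show (fun j => toBig K g (u j)) = toBig K g ∘ u from rfl]
  refine AlgebraicIndependent.map' ?_ toBig_injective
  rw [algebraicIndependent_iff]
  intro P hP
  by_contra hP0
  obtain ⟨e, he, hmin⟩ := P.support.exists_min_image Finsupp.degree
    (MvPolynomial.support_nonempty.2 hP0)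
  refine MvPolynomial.mem_support_iff.1 he ?_
  have h := congrArg (MvPowerSeries.coeff e) hP
  rw [map_zero, P.as_sum, map_sum, map_sum, Finset.sum_eq_single e] at h
  · rw [MvPolynomial.aeval_monomial, Finsupp.prod_pow, ← Algebra.smul_def,
      MvPowerSeries.coeff_smul, coeff_prod_pow u hu e e le_rfl, if_pos rfl] at h
    simpa using h
  · intro d hd hde
    rw [MvPolynomial.aeval_monomial, Finsupp.prod_pow, ← Algebra.smul_def,
      MvPowerSeries.coeff_smul, coeff_prod_pow u hu d e (hmin d hd), if_neg hde.symm]
    simp
  · exact fun h => absurd he h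

/-- The variables in the big field. -/
def svar (i : Fin g) : Big K g := toBig K g (MvPowerSeries.X i)

lemma algebraicIndependent_svar : AlgebraicIndependent K (svar (K := K) (g := g)) :=
  algebraicIndependent_of_linPart _ fun j => by
    classical
    refine TrivSqZeroExt.ext ?_ (funext fun l => ?_)
    · rw [fst_linPart, TrivSqZeroExt.fst_inr, MvPowerSeries.constantCoeff_X]
    · rw [snd_linPart, TrivSqZeroExt.snd_inr, MvPowerSeries.coeff_X, Pi.single_apply]
      simp [Finsupp.single_left_inj one_ne_zero]

variable (K g)

/-- The algebraic closure of `K(s₁, …, s_g)` in the big field. -/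
abbrev Omega : IntermediateField K (Big K g) := acl K (Set.range (svar (K := K) (g := g)))

variable {K g}

/-- The variables in `Omega`. -/
def omegaVar (i : Fin g) : Omega K g := ⟨svar i, subset_acl _ ⟨i, rfl⟩⟩

lemma isTranscendenceBasis_omegaVar :
    IsTranscendenceBasis K (omegaVar (K := K) (g := g)) := by
  have hi : AlgebraicIndependent K (omegaVar (K := K) (g := g)) :=
    AlgebraicIndependent.of_comp (Omega K g).val algebraicIndependent_svar
  refine hi.isTranscendenceBasis_iff_isAlgebraic.2 ⟨fun z => ?_⟩
  have hz : IsAlgebraic (Algebra.adjoin K (Set.range (svar (K := K) (g := g)))) (z : Big K g) :=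
    (IntermediateField.isAlgebraic_adjoin_iff (F := K)).mp (mem_acl.1 z.2)
  let f : Algebra.adjoin K (Set.range (omegaVar (K := K) (g := g))) →ₐ[K]
      Algebra.adjoin K (Set.range (svar (K := K) (g := g))) :=
    ((Omega K g).val.comp (Algebra.adjoin K _).val).codRestrict _ fun a => by
      have h2 : (Omega K g).val (a : Omega K g) ∈
          (Algebra.adjoin K (Set.range (omegaVar (K := K) (g := g)))).map (Omega K g).val :=
        ⟨_, a.2, rfl⟩
      rw [AlgHom.map_adjoin, ← Set.range_comp] at h2
      exact h2
  have hf : Function.Surjective f := by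
    rintro ⟨a, ha⟩
    rw [show Set.range (svar (K := K) (g := g)) =
      (Omega K g).val '' Set.range (omegaVar (K := K) (g := g)) by rw [← Set.range_comp]; rfl,
      ← AlgHom.map_adjoin] at ha
    obtain ⟨b, hb, rfl⟩ := Subalgebra.mem_map.1 ha
    exact ⟨⟨b, hb⟩, rfl⟩
  obtain ⟨p, hp, hpz⟩ := hz
  obtain ⟨q, rfl⟩ := Polynomial.map_surjective f.toRingHom hf p
  refine ⟨q, fun h => hp (by rw [h, Polynomial.map_zero]), Subtype.ext ?_⟩
  rw [Polynomial.aeval_def, Polynomial.eval₂_map] at hpz
  rw [Polynomial.aeval_def]
  show (Omega K g).val.toRingHom (Polynomial.eval₂ _ z q) = 0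
  rw [Polynomial.hom_eval₂]
  exact hpz

/-- Independent families of the right size generate `Omega` up to algebraic elements. -/
theorem isAlgebraic_of_independent {v : Fin g → Omega K g} (hv : AlgebraicIndependent K v)
    {E : IntermediateField K (Omega K g)} (hE : ∀ j, v j ∈ E) (z : Omega K g) :
    IsAlgebraic E z :=
  (isIntegral_of_independent isTranscendenceBasis_omegaVar hv
    (fun j => isIntegral_algebraMap (x := (⟨v j, hE j⟩ : E))) z).isAlgebraic

section Emb

variable {R : Type u} [CommRing R] [Algebra K R] (t : Fin g → R) (e0 : R →ₐ[K] K)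
variable (het : (MvPolynomial.aeval (R := K) t).toRingHom.Etale) (he0 : ∀ i, e0 (t i) = 0)

/-- Power series in the `i`-th variable, in the big field. -/
def seriesEmb (i : Fin g) : PowerSeries K →+* Big K g :=
  ((toBig K g).comp (curveSubst i)).toRingHom

lemma seriesEmb_injective (i : Fin g) : Function.Injective (seriesEmb (K := K) i) :=
  toBig_injective.comp (curveSubst_injective i)

lemma laurentSeries_algebraMap (p : PowerSeries K) :
    algebraMap (PowerSeries K) (LaurentSeries K) p = HahnSeries.ofPowerSeries ℤ K p := rfl

/-- Laurent series in the `i`-th variable. -/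
def laurentEmb (i : Fin g) : LaurentSeries K →ₐ[K] Big K g where
  __ := IsFractionRing.lift (A := PowerSeries K) (seriesEmb_injective (K := K) i)
  commutes' c := by
    have h : (algebraMap K (LaurentSeries K)) c =
        algebraMap (PowerSeries K) (LaurentSeries K) (PowerSeries.C c) := by
      rw [laurentSeries_algebraMap, HahnSeries.ofPowerSeries_C,
        algebraMap_laurentSeries_eq_single, HahnSeries.C_apply]
    rw [RingHom.toFun_eq_coe, h]
    show IsFractionRing.lift (seriesEmb_injective (K := K) i)
      (algebraMap (PowerSeries K) (LaurentSeries K) _) = _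
    rw [IsFractionRing.lift_algebraMap]
    exact ((toBig K g).comp (curveSubst i)).commutes c

lemma laurentEmb_coe (i : Fin g) (p : PowerSeries K) :
    laurentEmb i (HahnSeries.ofPowerSeries ℤ K p) = toBig K g (curveSubst i p) := by
  show IsFractionRing.lift (seriesEmb_injective (K := K) i)
    (algebraMap (PowerSeries K) (LaurentSeries K) p) = _
  rw [IsFractionRing.lift_algebraMap]
  rfl

/-- The field of the `i`-th series point in the big field. -/
def curveEmb (i : Fin g) : curveField t e0 het he0 i →ₐ[K] Big K g :=
  (laurentEmb i).comp (curveField t e0 het he0 i).val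

lemma curveEmb_curveVal (i : Fin g) (r : R) :
    curveEmb t e0 het he0 i (curveVal t e0 het he0 i r) =
      toBig K g (curveSubst i (curveHom t e0 het he0 i r)) := by
  rw [curveEmb, AlgHom.comp_apply, IntermediateField.coe_val, coe_curveVal, curveLaurent_apply,
    laurentEmb_coe]

lemma curveEmb_curveParam (i : Fin g) :
    curveEmb t e0 het he0 i (curveParam t e0 het he0 i) = svar i := by
  rw [curveParam, curveEmb_curveVal, curveHom_t, axisVar, if_pos rfl, curveSubst_X, svar]

lemma curveEmb_mem_omega [IsAlgClosed K] (i : Fin g) (z : curveField t e0 het he0 i) :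
    curveEmb t e0 het he0 i z ∈ Omega K g := by
  have := isFunctionField_curveField t e0 het he0 i
  set x := curveParam t e0 het he0 i with hx
  have := FunctionFieldRR.finiteDimensional_adjoin (K := K)
    (transcendental_curveParam t e0 het he0 i)
  obtain ⟨p, hp, hpz⟩ := (Algebra.IsAlgebraic.isAlgebraic (R := K⟮x⟯) z)
  rw [mem_acl]
  have hmem : ∀ a : K⟮x⟯, curveEmb t e0 het he0 i (a : curveField t e0 het he0 i) ∈
      IntermediateField.adjoin K (Set.range (svar (K := K) (g := g))) := fun a => by
    have h1 : curveEmb t e0 het he0 i (a : curveField t e0 het he0 i) ∈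
        (K⟮x⟯).map (curveEmb t e0 het he0 i) := ⟨a, a.2, rfl⟩
    rw [IntermediateField.adjoin_map, Set.image_singleton,
      show curveEmb t e0 het he0 i x = svar i from curveEmb_curveParam t e0 het he0 i] at h1
    exact IntermediateField.adjoin.mono K _ _ (Set.singleton_subset_iff.2 (Set.mem_range_self i)) h1
  let f : K⟮x⟯ →+* IntermediateField.adjoin K (Set.range (svar (K := K) (g := g))) :=
    ((curveEmb t e0 het he0 i).toRingHom.comp (K⟮x⟯).val.toRingHom).codRestrict _ hmem
  refine ⟨p.map f, (Polynomial.map_ne_zero_iff f.injective).2 hp, ?_⟩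
  rw [Polynomial.aeval_def, Polynomial.eval₂_map]
  have h := congrArg (curveEmb t e0 het he0 i).toRingHom hpz
  rw [Polynomial.aeval_def, Polynomial.hom_eval₂, map_zero] at h
  exact h

/-- The field of the `i`-th series point in `Omega`. -/
def curveEmbOmega [IsAlgClosed K] (i : Fin g) : curveField t e0 het he0 i →ₐ[K] Omega K g :=
  (curveEmb t e0 het he0 i).codRestrict (Omega K g).toSubalgebra
    (curveEmb_mem_omega t e0 het he0 i)

lemma coe_curveEmbOmega [IsAlgClosed K] (i : Fin g) (z : curveField t e0 het he0 i) :
    (curveEmbOmega t e0 het he0 i z : Big K g) = curveEmb t e0 het he0 i z := rfl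

end Emb

end Fermat.Agent.AV.Local

end
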