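import Fermat.Agent.AV.Local.Chart
import Fermat.Agent.AV.Local.SeriesGen
import Fermat.Agent.AV.Scheme.Functor

/-!
# Formal curves through the origin

With etale coordinates vanishing at the origin, the points on the coordinate axes of the formal
group have a sum that is generic.
-/

set_option autoImplicit false

noncomputable section

open CategoryTheory AlgebraicGeometry
open IsLocalRing Fermat.Agent.Row27

namespace Fermat.Agent.AV.AbVar

universe u

variable {K : Type u} [Field K] (V : AbVar K)

/-- A point with values in a local ring lands in every open containing its closed point. -/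
lemma range_subset_of_closedPoint {R : Type u} [CommRing R] [Algebra K R] [IsLocalRing R]
    (x : V.Point R) (U : V.A.Opens) (h : x.1 (closedPoint R) ∈ U) :
    Set.range x.1 ⊆ (U : Set V.A) := by
  let W : TopologicalSpace.Opens (PrimeSpectrum R) := x.1 ⁻¹ᵁ U
  have hW : W = ⊤ := IsLocalRing.closed_point_mem_iff.mp h
  rintro _ ⟨p, rfl⟩
  have : (p : PrimeSpectrum R) ∈ W := hW ▸ trivial
  exact this

/-- The constant term as an algebra map. -/
def seriesConst (g : ℕ) : MvPowerSeries (Fin g) K →ₐ[K] K :=
  { MvPowerSeries.constantCoeff with commutes' := fun c => by simp [MvPowerSeries.algebraMap_apply]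
      }

@[simp] lemma seriesConst_apply (g : ℕ) (p : MvPowerSeries (Fin g) K) :
    seriesConst g p = MvPowerSeries.constantCoeff p := rfl

variable [IsAlgClosed K]

omit [IsAlgClosed K] in
/-- Etale coordinates vanishing at the origin. -/
lemma exists_zero_chart : ∃ (U : V.A.Opens) (hU : IsAffineOpen U) (t : Fin V.g → Γ(V.A, U)),
    letI := V.chartAlgebra U
    (MvPolynomial.aeval (R := K) t).toRingHom.Etale ∧
      ∃ a₀ : Γ(V.A, U) →ₐ[K] K, V.ofChart hU a₀ = 0 ∧ ∀ i, a₀ (t i) = 0 := by
  obtain ⟨U, hU, hp, t, het⟩ := V.exists_etale_chart ((0 : V.Point K).1 (closedPoint K))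
  let := V.chartAlgebra U
  obtain ⟨a₀, ha₀⟩ := V.exists_ofChart hU (0 : V.Point K) (by
    rintro _ ⟨q, rfl⟩
    rwa [Subsingleton.elim q (closedPoint K)])
  refine ⟨U, hU, fun i => t i - algebraMap K _ (a₀ (t i)), ?_, a₀, ha₀, fun i => by simp⟩
  let σ : MvPolynomial (Fin V.g) K ≃ₐ[K] MvPolynomial (Fin V.g) K :=
    AlgEquiv.ofAlgHom
      (MvPolynomial.aeval fun i => MvPolynomial.X i - MvPolynomial.C (a₀ (t i)))
      (MvPolynomial.aeval fun i => MvPolynomial.X i + MvPolynomial.C (a₀ (t i)))
      (MvPolynomial.algHom_ext fun i => by simp)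
      (MvPolynomial.algHom_ext fun i => by simp)
  have h1 := RingHom.Etale.respectsIso.2 _ σ.toRingEquiv het
  have h2 : (MvPolynomial.aeval (R := K) t).comp σ.toAlgHom =
      MvPolynomial.aeval fun i => t i - algebraMap K _ (a₀ (t i)) :=
    MvPolynomial.algHom_ext fun i => by simp [σ]
  rw [← h2]
  exact h1

omit [IsAlgClosed K] in
lemma toData_map {hdeg hconj} {L L' : Type u} [Field L] [Algebra K L] [Field L'] [Algebra K L']
    (ψ : L →ₐ[K] L') (x : V.Point L) :
    (V.toDataOf hdeg hconj).map ψ x = V.pull ψ x := V.red_ofAlgHom ψ x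

/-- **Formal curves through the origin exist.** -/
theorem exists_formalCurvesOf
    (hdeg : ∀ {L : Type u} [Field L] [Algebra K L] (x : V.Point L) (v : Fin (V.g + 1) → L),
      (∀ i, v i ∈ V.imgField x) → ¬ AlgebraicIndependent K v)
    (hconj : ∀ {L L' : Type u} [Field L] [Algebra K L] [Field L'] [Algebra K L']
      [IsAlgClosed L'] (x : V.Point L) (y : V.Point L'),
      (∃ v : Fin V.g → L, AlgebraicIndependent K v ∧ ∀ i, v i ∈ V.imgField x) →
      (∃ v : Fin V.g → L', AlgebraicIndependent K v ∧ ∀ i, v i ∈ V.imgField y) →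
      (∀ z : L, IsAlgebraic (V.imgField x) z) →
      ∃ e : L →ₐ[K] L', V.red (Spec.ofAlgHom e) x = y) :
    Nonempty (FormalCurves (V.toDataOf hdeg hconj)) := by
  classical
  obtain ⟨U, hU, t, het, a₀, ha₀, he0⟩ := V.exists_zero_chart
  let := V.chartAlgebra U
  -- the points on the axes
  let c : ∀ i, V.Point (Local.curveField t a₀ het he0 i) := fun i =>
    V.ofChart hU (Local.curveVal t a₀ het he0 i)
  let e : ∀ i, Local.curveField t a₀ het he0 i →ₐ[K] Local.Omega K V.g :=
    Local.curveEmbOmega t a₀ het he0
  let S : V.Point (Local.Omega K V.g) := ∑ i, V.pull (e i) (c i)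
  -- their formal sum
  let b₁ : Fin V.g → (Γ(V.A, U) →ₐ[K] MvPowerSeries (Fin V.g) K) := fun i =>
    (Local.curveSubst i).comp (Local.curveHom t a₀ het he0 i)
  let Q : V.Point (MvPowerSeries (Fin V.g) K) := ∑ i, V.ofChart hU (b₁ i)
  have hcQ : V.pull (seriesConst V.g) Q = 0 := by
    rw [map_sum]
    refine Finset.sum_eq_zero fun i _ => ?_
    rw [V.pull_ofChart, ← ha₀]
    exact congrArg (V.ofChart hU) (AlgHom.ext fun r => by
      simp [b₁, Local.constantCoeff_curveSubst, Local.constantCoeff_curveHom])
  have hrange : Set.range Q.1 ⊆ (U : Set V.A) := by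
    refine V.range_subset_of_closedPoint Q U ?_
    have hcl : AlgebraicGeometry.Spec.map (CommRingCat.ofHom (seriesConst (K := K) V.g).toRingHom)
        (closedPoint K) = closedPoint (MvPowerSeries (Fin V.g) K) := by
      refine PrimeSpectrum.ext (Ideal.ext fun p => ?_)
      show seriesConst (K := K) V.g p ∈ IsLocalRing.maximalIdeal K ↔
        p ∈ IsLocalRing.maximalIdeal (MvPowerSeries (Fin V.g) K)
      simp only [IsLocalRing.mem_maximalIdeal, mem_nonunits_iff, seriesConst_apply,
        MvPowerSeries.isUnit_iff_constantCoeff]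
    rw [← hcl]
    have h : (0 : V.Point K).1 (closedPoint K) ∈ U := by
      rw [← ha₀]
      exact SetLike.mem_coe.mp (hU.range_fromSpec ▸ Set.mem_range_self _)
    exact (congrArg (fun x : V.Point K => x.1 (closedPoint K) ∈ U) hcQ).mpr h
  obtain ⟨b, hb⟩ := V.exists_ofChart hU Q hrange
  have hlin : ∀ j, Local.linPart (b (t j)) = TrivSqZeroExt.inr (Pi.single j 1) := by
    intro j
    refine TrivSqZeroExt.ext ?_ (funext fun k => ?_)
    · have h : (seriesConst V.g).comp b = a₀ := V.ofChart_injective hU (by
        rw [← V.pull_ofChart, hb, hcQ, ha₀])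
      rw [Local.fst_linPart, TrivSqZeroExt.fst_inr, ← he0 j]
      exact DFunLike.congr_fun h (t j)
    · let ψ : MvPowerSeries (Fin V.g) K →ₐ[K] TrivSqZeroExt K K :=
        (TrivSqZeroExt.map (LinearMap.proj k : (Fin V.g → K) →ₗ[K] K)).comp Local.linPart
      have hψb : ∀ i r, ψ (b₁ i r) = TrivSqZeroExt.inl (a₀ r) + TrivSqZeroExt.inr
          ((Pi.single i (PowerSeries.coeff 1 (Local.curveHom t a₀ het he0 i r)) :
            Fin V.g → K) k) := fun i r => by
        simp only [ψ, b₁, AlgHom.comp_apply, Local.linPart_curveSubst, map_add,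
          TrivSqZeroExt.map_inl, TrivSqZeroExt.map_inr, LinearMap.proj_apply]
        rw [PowerSeries.coeff_zero_eq_constantCoeff_apply, Local.constantCoeff_curveHom]
      have hsum : V.pull ψ Q = V.ofChart hU (ψ.comp (b₁ k)) := by
        rw [map_sum, Finset.sum_eq_single k, V.pull_ofChart]
        · intro i _ hik
          rw [V.pull_ofChart,
            show ψ.comp (b₁ i) = (Algebra.ofId K (TrivSqZeroExt K K)).comp a₀ from
              AlgHom.ext fun r => by
                rw [AlgHom.comp_apply, hψb, Pi.single_eq_of_ne (Ne.symm hik),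
                  TrivSqZeroExt.inr_zero, add_zero]
                rfl,
            ← V.pull_ofChart, ha₀, map_zero]
        · exact fun h => absurd (Finset.mem_univ k) h
      have h : ψ.comp b = ψ.comp (b₁ k) := V.ofChart_injective hU (by
        rw [← V.pull_ofChart, hb, hsum])
      have hv := congrArg TrivSqZeroExt.snd (DFunLike.congr_fun h (t j))
      replace hv : (ψ (b (t j))).snd = (ψ (b₁ k (t j))).snd := hv
      rw [hψb, TrivSqZeroExt.snd_add,
        TrivSqZeroExt.snd_inl, zero_add, TrivSqZeroExt.snd_inr, Pi.single_eq_same,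
        Local.curveHom_t] at hv
      simp only [ψ, AlgHom.comp_apply, TrivSqZeroExt.snd_map, LinearMap.proj_apply] at hv
      rw [hv, TrivSqZeroExt.snd_inr, Local.axisVar, Pi.single_apply]
      rcases eq_or_ne j k with rfl | hjk
      · rw [if_pos rfl, if_pos rfl, PowerSeries.coeff_one_X]
      · rw [if_neg hjk, if_neg (Ne.symm hjk), map_zero]
  have hS : V.pull (Local.Omega K V.g).val S = V.pull (Local.toBig K V.g) Q := by
    rw [map_sum, map_sum]
    refine Finset.sum_congr rfl fun i _ => ?_
    rw [V.pull_pull, V.pull_ofChart, V.pull_ofChart]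
    refine congrArg (V.ofChart hU) (AlgHom.ext fun r => ?_)
    exact (Local.coe_curveEmbOmega t a₀ het he0 i _).trans
      (Local.curveEmb_curveVal t a₀ het he0 i r)
  have hmem : ∀ j, Local.toBig K V.g (b (t j)) ∈ (V.imgField S).map (Local.Omega K V.g).val := by
    intro j
    rw [← V.imgField_pull, hS, ← hb, V.pull_ofChart, V.imgField_ofChart]
    exact IntermediateField.subset_adjoin K _ ⟨t j, rfl⟩
  choose v hv hv' using fun j => (IntermediateField.mem_map _).1 (hmem j)
  have hind : AlgebraicIndependent K v := by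
    refine AlgebraicIndependent.of_comp (Local.Omega K V.g).val ?_
    rw [show ((Local.Omega K V.g).val ∘ v) = fun j => Local.toBig K V.g (b (t j)) from funext hv']
    exact Local.algebraicIndependent_of_linPart _ hlin
  have hsumD : (∑ i, (V.toDataOf hdeg hconj).map (e i) (c i)) = S :=
    Finset.sum_congr rfl fun i _ => V.toData_map (e i) (c i)
  exact ⟨{
    F := fun i => Local.curveField t a₀ het he0 i
    fieldF := fun i => inferInstance
    algF := fun i => inferInstance
    isFunctionField := Local.isFunctionField_curveField t a₀ het he0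
    O := Local.curvePlace t a₀ het he0
    c := c
    red_O := fun i φ hφ => by
      replace hφ : φ.dom = Local.curveRing t a₀ het he0 i := hφ
      show V.red φ (c i) = (0 : V.Point K)
      have hm : ∀ r, Local.curveVal t a₀ het he0 i r ∈ φ.dom := fun r =>
        hφ ▸ Local.curveVal_mem_curveRing t a₀ het he0 i r
      let b' : Γ(V.A, U) →ₐ[K] φ.dom :=
        { ((Local.curveVal t a₀ het he0 i : Γ(V.A, U) →+* _).codRestrict φ.dom.toSubring hm) with
          commutes' := fun x => by
            refine Subtype.ext ?_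
            exact (Local.curveVal t a₀ het he0 i).commutes x }
      have h1 : c i = V.pull (domVal φ) (V.ofChart hU b') := by
        rw [V.pull_ofChart]
        rfl
      rw [h1, V.red_pull, V.pull_ofChart, ← ha₀]
      exact congrArg (V.ofChart hU) (AlgHom.ext fun r =>
        Local.spec_map_curveVal t a₀ het he0 φ hφ r (hm r))
    Ω := Local.Omega K V.g
    e := e
    isGen := (congrArg (fun x => (V.toDataOf hdeg hconj).IsGen x) hsumD).mpr ⟨v, hind, hv⟩
    isAlgebraic := fun z => (congrArg
      (fun x => IsAlgebraic ((V.toDataOf hdeg hconj).defField x) z) hsumD).mpr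
      (Local.isAlgebraic_of_independent hind hv z) }⟩

/-- **Formal curves of the points functor exist.** -/
theorem exists_formalCurves : Nonempty (FormalCurves V.toData) :=
  V.exists_formalCurvesOf _ _

end Fermat.Agent.AV.AbVar

end
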