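import Mathlib

/-!
# Series lifts at a rational point with étale coordinates

Along each coordinate axis a rational point with étale coordinates lifts uniquely to a series
point; the series point generates a function field with the place `s = 0`.
-/

set_option autoImplicit false

noncomputable section

open Polynomial

namespace Fermat.Agent.AV.Local

universe u

variable {K : Type u} [Field K] {g : ℕ} {R : Type u} [CommRing R] [Algebra K R]
variable (t : Fin g → R) (e0 : R →ₐ[K] K)

/-- The images of the variables on the `i`-th axis. -/
def axisVar (i j : Fin g) : PowerSeries K := if j = i then PowerSeries.X else 0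

lemma axisVar_mem (i j : Fin g) :
    (axisVar i j : PowerSeries K) ∈ (Ideal.span {PowerSeries.X} : Ideal (PowerSeries K)) := by
  rw [axisVar]
  split_ifs
  · exact Ideal.mem_span_singleton_self _
  · exact Ideal.zero_mem _

variable (het : (MvPolynomial.aeval (R := K) t).toRingHom.Etale) (he0 : ∀ i, e0 (t i) = 0)
include het he0

/-- A point on the `i`-th axis through `e0`. -/
theorem exists_curveHom (i : Fin g) : ∃ φ : R →ₐ[K] PowerSeries K,
    (∀ j, φ (t j) = axisVar i j) ∧ ∀ r, PowerSeries.constantCoeff (φ r) = e0 r := by
  let P := MvPolynomial (Fin g) K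
  let algR : Algebra P R := (MvPolynomial.aeval (R := K) t).toRingHom.toAlgebra
  let algS : Algebra P (PowerSeries K) :=
    (MvPolynomial.aeval (R := K) (axisVar (K := K) i)).toRingHom.toAlgebra
  have : Algebra.Etale P R := het
  set I : Ideal (PowerSeries K) := Ideal.span {PowerSeries.X} with hI
  let f0 : R →+* PowerSeries K ⧸ I :=
    (Ideal.Quotient.mk I).comp (PowerSeries.C.comp e0.toRingHom)
  have hf0 : ∀ p : P, f0 (MvPolynomial.aeval (R := K) t p) =
      Ideal.Quotient.mk I (MvPolynomial.aeval (R := K) (axisVar (K := K) i) p) := by
    intro p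
    induction p using MvPolynomial.induction_on with
    | C c =>
      simp only [MvPolynomial.aeval_C, f0, RingHom.comp_apply, AlgHom.toRingHom_eq_coe,
        RingHom.coe_coe, AlgHom.commutes]
      rfl
    | add p q hp hq => simp only [map_add, hp, hq]
    | mul_X p j hp =>
      simp only [map_mul, hp, MvPolynomial.aeval_X]
      congr 1
      rw [(Ideal.Quotient.eq_zero_iff_mem.mpr (axisVar_mem i j) :
        Ideal.Quotient.mk I (axisVar (K := K) i j) = 0)]
      simp [f0, he0]
  let f : R →ₐ[P] PowerSeries K ⧸ I := { f0 with commutes' := hf0 }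
  obtain ⟨φ, hφ⟩ := Algebra.FormallySmooth.exists_mkₐ_comp_eq_of_isAdicComplete f
  have hcomm : ∀ p : P, φ (MvPolynomial.aeval (R := K) t p) =
      MvPolynomial.aeval (R := K) (axisVar (K := K) i) p := φ.commutes
  refine ⟨{ φ.toRingHom with commutes' := fun c => ?_ }, fun j => ?_, fun r => ?_⟩
  · simp
  · simpa using hcomm (MvPolynomial.X j)
  · have h : Ideal.Quotient.mk I (φ r) = Ideal.Quotient.mk I (PowerSeries.C (e0 r)) :=
      AlgHom.congr_fun hφ r
    rw [Ideal.Quotient.eq, hI, Ideal.mem_span_singleton, PowerSeries.X_dvd_iff, map_sub,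
      PowerSeries.constantCoeff_C, sub_eq_zero] at h
    exact h

/-- The point on the `i`-th axis through `e0`. -/
def curveHom (i : Fin g) : R →ₐ[K] PowerSeries K := (exists_curveHom t e0 het he0 i).choose

lemma curveHom_t (i j : Fin g) : curveHom t e0 het he0 i (t j) = axisVar i j :=
  (exists_curveHom t e0 het he0 i).choose_spec.1 j

lemma constantCoeff_curveHom (i : Fin g) (r : R) :
    PowerSeries.constantCoeff (curveHom t e0 het he0 i r) = e0 r :=
  (exists_curveHom t e0 het he0 i).choose_spec.2 r

omit he0 in
/-- Derivations vanishing on the coordinates vanish on every algebra generated by `R`. -/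
theorem derivation_eq_zero {L M : Type*} [Field L] [Algebra K L] [AddCommGroup M] [Module L M]
    [Module K M] [IsScalarTower K L M] (φ : R →ₐ[K] L)
    (hgen : IntermediateField.adjoin K (Set.range φ) = ⊤) (D : Derivation K L M)
    (ht : ∀ j, D (φ (t j)) = 0) : D = 0 := by
  let P := MvPolynomial (Fin g) K
  let algR : Algebra P R := (MvPolynomial.aeval (R := K) t).toRingHom.toAlgebra
  have : Algebra.Etale P R := het
  let : Algebra R L := φ.toRingHom.toAlgebra
  let : Module R M := Module.compHom M φ.toRingHom
  let : Module P M := Module.compHom M (φ.toRingHom.comp (algebraMap P R))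
  have : IsScalarTower P R M := ⟨fun p r m => by
    show φ (algebraMap P R p * r) • m = φ (algebraMap P R p) • φ r • m
    rw [map_mul, mul_smul]⟩
  have hP : ∀ p : P, D (φ (algebraMap P R p)) = 0 := by
    intro p
    show D (φ (MvPolynomial.aeval (R := K) t p)) = 0
    induction p using MvPolynomial.induction_on with
    | C c => rw [MvPolynomial.aeval_C, AlgHom.commutes, Derivation.map_algebraMap]
    | add p q hp hq => rw [map_add, map_add, map_add, hp, hq, add_zero]
    | mul_X p j hp =>
      rw [map_mul, map_mul, MvPolynomial.aeval_X, Derivation.leibniz, hp, ht, smul_zero, smul_zero,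
        add_zero]
  let δ : Derivation P R M := Derivation.mk'
    { toFun := fun r => D (φ r)
      map_add' := fun a b => by simp only [map_add]
      map_smul' := fun p r => by
        show D (φ (algebraMap P R p * r)) = φ (algebraMap P R p) • D (φ r)
        rw [map_mul, Derivation.leibniz, hP, smul_zero, add_zero] }
    fun a b => by
      show D (φ (a * b)) = φ a • D (φ b) + φ b • D (φ a)
      rw [map_mul, Derivation.leibniz]
  have hδ : ∀ r, δ r = 0 := fun r => by
    rw [← δ.liftKaehlerDifferential_comp_D]
    rw [show KaehlerDifferential.D P R r = 0 from Subsingleton.elim _ _, map_zero]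
  ext l
  have hl : l ∈ IntermediateField.adjoin K (Set.range φ) := hgen ▸ IntermediateField.mem_top
  induction hl using IntermediateField.adjoin_induction with
  | mem x hx =>
    obtain ⟨r, rfl⟩ := hx
    exact hδ r
  | algebraMap c => simp
  | add x y _ _ hx hy => simp [map_add, hx, hy]
  | inv x _ hx =>
    rw [Derivation.leibniz_inv, hx]
    simp
  | mul x y _ _ hx hy => simp [Derivation.leibniz, hx, hy]

end Fermat.Agent.AV.Local

end
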