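import Fermat.Agent.AV.Local.Series
import Fermat.Agent.Row27.BaseSeries
import Fermat.Agent.Row27.Interface
import Fermat.Agent.AV.Instances

/-!
# The function field of a series point, with its place
-/

set_option autoImplicit false

noncomputable section

open AlgebraicCurve IntermediateField ModularCurve
open Fermat.Agent.Row27 Fermat.Agent.FunctionFieldRR

namespace Fermat.Agent.AV.Local

universe u

variable {K : Type u} [Field K] {g : ℕ} {R : Type u} [CommRing R] [Algebra K R]
variable (t : Fin g → R) (e0 : R →ₐ[K] K)
variable (het : (MvPolynomial.aeval (R := K) t).toRingHom.Etale) (he0 : ∀ i, e0 (t i) = 0)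

/-- Power series as Laurent series, over the constants. -/
def seriesAlgHom : PowerSeries K →ₐ[K] LaurentSeries K where
  __ := HahnSeries.ofPowerSeries ℤ K
  commutes' c := by
    show HahnSeries.ofPowerSeries ℤ K (PowerSeries.C c) = _
    rw [HahnSeries.ofPowerSeries_C, algebraMap_laurentSeries_eq_single, HahnSeries.C_apply]

/-- The Laurent series of the point on the `i`-th axis. -/
def curveLaurent (i : Fin g) : R →ₐ[K] LaurentSeries K :=
  seriesAlgHom.comp (curveHom t e0 het he0 i)

lemma curveLaurent_apply (i : Fin g) (r : R) :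
    curveLaurent t e0 het he0 i r = HahnSeries.ofPowerSeries ℤ K (curveHom t e0 het he0 i r) := rfl

/-- The field of the point on the `i`-th axis. -/
def curveField (i : Fin g) : IntermediateField K (LaurentSeries K) :=
  IntermediateField.adjoin K (Set.range (curveLaurent t e0 het he0 i))

/-- The point on the `i`-th axis with values in its field. -/
def curveVal (i : Fin g) : R →ₐ[K] curveField t e0 het he0 i :=
  (curveLaurent t e0 het he0 i).codRestrict (curveField t e0 het he0 i).toSubalgebra
    fun r => subset_adjoin K _ ⟨r, rfl⟩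

lemma coe_curveVal (i : Fin g) (r : R) :
    (curveVal t e0 het he0 i r : LaurentSeries K) = curveLaurent t e0 het he0 i r := rfl

lemma adjoin_curveVal (i : Fin g) :
    IntermediateField.adjoin K (Set.range (curveVal t e0 het he0 i)) = ⊤ := by
  refine eq_top_iff.2 fun z _ => ?_
  have h1 : (IntermediateField.adjoin K (Set.range (curveVal t e0 het he0 i))).map
      (curveField t e0 het he0 i).val = curveField t e0 het he0 i := by
    rw [IntermediateField.adjoin_map, ← Set.range_comp]
    rfl
  have h2 : (z : LaurentSeries K) ∈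
      (IntermediateField.adjoin K (Set.range (curveVal t e0 het he0 i))).map
        (curveField t e0 het he0 i).val := by
    rw [h1]; exact z.2
  obtain ⟨w, hw, hwz⟩ := (IntermediateField.mem_map _).1 h2
  rwa [← Subtype.ext (a1 := w) (a2 := z) hwz]

/-- The parameter of the `i`-th curve. -/
def curveParam (i : Fin g) : curveField t e0 het he0 i := curveVal t e0 het he0 i (t i)

lemma coe_curveParam (i : Fin g) :
    (curveParam t e0 het he0 i : LaurentSeries K) = HahnSeries.single 1 1 := by
  rw [curveParam, coe_curveVal, curveLaurent_apply, curveHom_t, axisVar, if_pos rfl,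
    HahnSeries.ofPowerSeries_X]

lemma curveVal_t_of_ne {i j : Fin g} (h : j ≠ i) : curveVal t e0 het he0 i (t j) = 0 :=
  Subtype.ext (by rw [coe_curveVal, curveLaurent_apply, curveHom_t, axisVar, if_neg h]; simp)

lemma transcendental_curveParam [IsAlgClosed K] (i : Fin g) :
    Transcendental K (curveParam t e0 het he0 i) := fun h => by
  have h' := h.algebraMap (A := LaurentSeries K)
  refine transcendental_of_order_ne_zero (s := (curveParam t e0 het he0 i : LaurentSeries K)) ?_ h'
  rw [coe_curveParam, HahnSeries.order_single one_ne_zero]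
  exact one_ne_zero

omit het he0 in
/-- A field generated by a point on a curve through étale coordinates is a function field. -/
theorem isFunctionField_of_axis [IsAlgClosed K] (het : (MvPolynomial.aeval (R := K)
    t).toRingHom.Etale)
    {F : Type u} [Field F] [Algebra K F] (φ : R →ₐ[K] F)
    (hgen : IntermediateField.adjoin K (Set.range φ) = ⊤) (x : F) (hx : Transcendental K x)
    (hφ : ∀ j, φ (t j) = x ∨ φ (t j) = 0) : IsFunctionField K F := by
  classical
  have hRfin : Algebra.FiniteType K R := by
    let algR : Algebra (MvPolynomial (Fin g) K) R :=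
      (MvPolynomial.aeval (R := K) t).toRingHom.toAlgebra
    have : IsScalarTower K (MvPolynomial (Fin g) K) R := IsScalarTower.of_algebraMap_eq fun c =>
      (MvPolynomial.aeval_C (R := K) t c).symm
    have : Algebra.Etale (MvPolynomial (Fin g) K) R := het
    exact Algebra.FiniteType.trans (S := MvPolynomial (Fin g) K) inferInstance inferInstance
  obtain ⟨S, hS⟩ := hRfin.out
  have hfg : (⊤ : IntermediateField K F).FG := by
    refine ⟨S.image φ, eq_top_iff.2 ?_⟩
    rw [← hgen, IntermediateField.adjoin_le_iff]
    rintro _ ⟨r, rfl⟩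
    have hr : r ∈ Algebra.adjoin K (S : Set R) := by rw [hS]; trivial
    refine IntermediateField.algebra_adjoin_le_adjoin K _ ?_
    rw [Finset.coe_image, Algebra.adjoin_image]
    exact ⟨r, hr, rfl⟩
  have : Algebra.EssFiniteType K F := IntermediateField.fg_top_iff.1 hfg
  have h0 : (KaehlerDifferential.D K⟮x⟯ F).restrictScalars K = 0 := by
    refine derivation_eq_zero t het φ hgen _ fun j => ?_
    rcases hφ j with h | h
    · rw [h]
      exact Derivation.map_algebraMap (KaehlerDifferential.D K⟮x⟯ F)
        ⟨x, mem_adjoin_simple_self K x⟩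
    · rw [h, map_zero]
  have : Subsingleton Ω[F⁄K⟮x⟯] := by
    refine (subsingleton_iff_forall_eq 0).2 fun w => ?_
    have hw : w ∈ (⊤ : Submodule F Ω[F⁄K⟮x⟯]) := Submodule.mem_top
    rw [← KaehlerDifferential.span_range_derivation] at hw
    refine (Submodule.mem_bot F).1 ((Submodule.span_le.2 ?_) hw)
    rintro _ ⟨z, rfl⟩
    exact (Submodule.mem_bot F).2 (Derivation.congr_fun h0 z)
  have : Algebra.FormallyUnramified K⟮x⟯ F := ⟨this⟩
  have : Algebra.EssFiniteType K⟮x⟯ F := Algebra.EssFiniteType.of_comp K K⟮x⟯ F
  exact ⟨⟨x, hx, Algebra.FormallyUnramified.finite_of_free K⟮x⟯ F⟩⟩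

/-- The field of a series point is a function field. -/
theorem isFunctionField_curveField [IsAlgClosed K] (i : Fin g) :
    IsFunctionField K (curveField t e0 het he0 i) :=
  isFunctionField_of_axis t het (curveVal t e0 het he0 i) (adjoin_curveVal t e0 het he0 i)
    (curveParam t e0 het he0 i) (transcendental_curveParam t e0 het he0 i) fun j => by
      rcases eq_or_ne j i with rfl | h
      · exact Or.inl rfl
      · exact Or.inr (curveVal_t_of_ne t e0 het he0 h)

/-- The valuation ring at `s = 0`. -/
def curveRing (i : Fin g) : ValuationSubring (curveField t e0 het he0 i) :=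
  (seriesRing K).comap (algebraMap (curveField t e0 het he0 i) (LaurentSeries K))

lemma mem_curveRing {i : Fin g} {f : curveField t e0 het he0 i} :
    f ∈ curveRing t e0 het he0 i ↔ ∀ n < 0, (f : LaurentSeries K).coeff n = 0 :=
  mem_seriesRing

lemma algebraMap_mem_curveRing (i : Fin g) (c : K) :
    algebraMap K (curveField t e0 het he0 i) c ∈ curveRing t e0 het he0 i :=
  (mem_curveRing t e0 het he0).2 fun n hn => by
    show (algebraMap K (LaurentSeries K) c).coeff n = 0
    rw [algebraMap_laurentSeries_eq_single, HahnSeries.coeff_single_of_ne hn.ne]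

lemma curveRing_ne_top (i : Fin g) : curveRing t e0 het he0 i ≠ ⊤ := fun h => by
  have h1 : (curveParam t e0 het he0 i)⁻¹ ∈ curveRing t e0 het he0 i :=
    h ▸ ValuationSubring.mem_top _
  have h2 := (mem_curveRing t e0 het he0).1 h1 (-1) (by omega)
  rw [show (((curveParam t e0 het he0 i)⁻¹ : curveField t e0 het he0 i) : LaurentSeries K) =
    ((curveParam t e0 het he0 i : LaurentSeries K))⁻¹ from rfl, coe_curveParam,
    show (HahnSeries.single (1 : ℤ) (1 : K))⁻¹ = HahnSeries.single (-1) 1 from
      inv_eq_of_mul_eq_one_left (by rw [HahnSeries.single_mul_single]; simp)] at h2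
  simp at h2

lemma curveVal_mem_curveRing (i : Fin g) (r : R) :
    curveVal t e0 het he0 i r ∈ curveRing t e0 het he0 i :=
  (mem_curveRing t e0 het he0).2 fun n hn => by
    rw [coe_curveVal, curveLaurent_apply]
    exact ofPowerSeries_coeff_neg _ hn

/-- The place at `s = 0`. -/
def curvePlace [IsAlgClosed K] (i : Fin g) : Place K (curveField t e0 het he0 i) :=
  letI := isFunctionField_curveField t e0 het he0 i
  placeOfValuationSubring (curveRing t e0 het he0 i) (algebraMap_mem_curveRing t e0 het he0 i)
    (curveRing_ne_top t e0 het he0 i)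

/-- Specialising at `s = 0` gives back the point `e0`. -/
theorem spec_map_curveVal {i : Fin g} (φ : Spec K (curveField t e0 het he0 i) K)
    (hφ : φ.dom = curveRing t e0 het he0 i) (r : R) (h : curveVal t e0 het he0 i r ∈ φ.dom) :
    φ.map ⟨curveVal t e0 het he0 i r, h⟩ = e0 r := by
  set z : φ.dom := ⟨curveVal t e0 het he0 i r, h⟩ -
    ⟨algebraMap K (curveField t e0 het he0 i) (e0 r), φ.trivOn _⟩ with hz
  have hz0 : φ.map z = 0 := by
    rw [φ.map_eq_zero]
    intro hu
    obtain ⟨⟨w, hw⟩, hw1⟩ := isUnit_iff_exists_inv.mp hu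
    have hwR : w ∈ curveRing t e0 het he0 i := hφ ▸ hw
    obtain ⟨q, hq⟩ : ∃ q : PowerSeries K, HahnSeries.ofPowerSeries ℤ K q = (w : LaurentSeries K) :=
      hwR
    have hzv : ((z : curveField t e0 het he0 i) : LaurentSeries K) =
        HahnSeries.ofPowerSeries ℤ K (curveHom t e0 het he0 i r - PowerSeries.C (e0 r)) := by
      rw [map_sub, HahnSeries.ofPowerSeries_C]
      show (curveVal t e0 het he0 i r : LaurentSeries K) - algebraMap K (LaurentSeries K) (e0 r) = _
      rw [coe_curveVal, curveLaurent_apply, algebraMap_laurentSeries_eq_single, HahnSeries.C_apply]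
    have hprod : HahnSeries.ofPowerSeries ℤ K
        ((curveHom t e0 het he0 i r - PowerSeries.C (e0 r)) * q) =
        HahnSeries.ofPowerSeries ℤ K 1 := by
      rw [map_mul, ← hzv, hq, map_one]
      exact congrArg (fun a : φ.dom => ((a : curveField t e0 het he0 i) : LaurentSeries K)) hw1
    have := congrArg PowerSeries.constantCoeff (HahnSeries.ofPowerSeries_injective hprod)
    rw [map_mul, map_sub, constantCoeff_curveHom, PowerSeries.constantCoeff_C, sub_self, zero_mul,
      map_one] at this
    exact one_ne_zero this.symm
  rw [hz, map_sub, φ.map_algebraMap, Algebra.algebraMap_self, RingHom.id_apply, sub_eq_zero] at hz0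
  exact hz0

end Fermat.Agent.AV.Local

end
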